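import Fermat.Agent.JH.Rel
import Fermat.Prelude.Def_GoodReductionJacobian_RelativeGroupLawKernel

/-!
# S25 (kb 73), block N-GRP: the group law on the scheme representing a group functor
-/

set_option autoImplicit false
set_option linter.unusedSectionVars false

noncomputable section

universe u

open CategoryTheory CategoryTheory.Limits AlgebraicGeometry NeronModelInfra GoodReductionJacobian

namespace Fermat.Agent.JNg

open Fermat.Agent.JH

section cls

variable {S : Scheme.{u}} (P : RelFun S) {J : Scheme.{u}} {p : J ⟶ S} {univ : P.obj p}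
  (huniv : ∀ {T : Scheme.{u}} (t : T ⟶ S) (h : P.obj t), ∃! g : SchemeHomOver t p,
    P.map g univ = h)

/-- the classifying morphism -/
def cls {T : Scheme.{u}} (t : T ⟶ S) (h : P.obj t) : SchemeHomOver t p := (huniv t h).choose

theorem map_cls {T : Scheme.{u}} (t : T ⟶ S) (h : P.obj t) :
    P.map (cls P huniv t h) univ = h := (huniv t h).choose_spec.1

include huniv in
theorem ext_of_map {T : Scheme.{u}} {t : T ⟶ S} {g g' : SchemeHomOver t p}
    (h : P.map g univ = P.map g' univ) : g = g' := (huniv t (P.map g' univ)).unique h rfl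

theorem cls_map {T : Scheme.{u}} {t : T ⟶ S} (g : SchemeHomOver t p) :
    cls P huniv t (P.map g univ) = g :=
  ext_of_map P huniv (map_cls P huniv t _)

end cls

section grp

variable {R : Type u} [CommRing R] (P : RelFun (Spec (CommRingCat.of R)))
  [grp : ∀ {T : Scheme.{u}} (t : T ⟶ Spec (CommRingCat.of R)), CommGroup (P.obj t)]
  (hmul : ∀ {T T' : Scheme.{u}} {t : T ⟶ Spec (CommRingCat.of R)}
    {t' : T' ⟶ Spec (CommRingCat.of R)} (g : SchemeHomOver t' t) (x y : P.obj t),
    P.map g (x * y) = P.map g x * P.map g y)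
  {J : Scheme.{u}} {p : J ⟶ Spec (CommRingCat.of R)} {univ : P.obj p}
  (huniv : ∀ {T : Scheme.{u}} (t : T ⟶ Spec (CommRingCat.of R)) (h : P.obj t),
    ∃! g : SchemeHomOver t p, P.map g univ = h)

theorem map_schemeHomOverComp {T T' : Scheme.{u}} {t : T ⟶ Spec (CommRingCat.of R)}
    {t' : T' ⟶ Spec (CommRingCat.of R)} (ψ : T' ⟶ T) (hψ : ψ ≫ t = t')
    (x : SchemeHomOver t p) :
    P.map (schemeHomOverComp ψ hψ x) univ = P.map ⟨ψ, hψ⟩ (P.map x univ) :=
  (P.map_comp x ⟨ψ, hψ⟩ univ).symm

/-- **the group law** on the scheme representing a group functor -/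
def groupLaw : RelativeGroupLaw R p where
  mul t x y := cls P huniv t (P.map x univ * P.map y univ)
  one t := cls P huniv t 1
  inv t x := cls P huniv t (P.map x univ)⁻¹
  mul_assoc t x y z := by
    apply ext_of_map P huniv
    rw [map_cls, map_cls, map_cls, map_cls, mul_assoc]
  one_mul t x := by
    apply ext_of_map P huniv
    rw [map_cls, map_cls, one_mul]
  mul_one t x := by
    apply ext_of_map P huniv
    rw [map_cls, map_cls, mul_one]
  inv_mul_cancel t x := by
    apply ext_of_map P huniv
    rw [map_cls, map_cls, map_cls, inv_mul_cancel]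
  mul_natural t t' ψ hψ x y := by
    apply ext_of_map P huniv
    rw [map_schemeHomOverComp, map_cls, map_cls, map_schemeHomOverComp, map_schemeHomOverComp,
      hmul]

theorem groupLaw_isCommutative : (groupLaw P hmul huniv).IsCommutative := by
  intro T t x y
  show cls P huniv t _ = cls P huniv t _
  rw [mul_comm]

theorem map_groupLaw_mul {T : Scheme.{u}} (t : T ⟶ Spec (CommRingCat.of R))
    (x y : SchemeHomOver t p) :
    P.map ((groupLaw P hmul huniv).mul t x y) univ = P.map x univ * P.map y univ :=
  map_cls P huniv t _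

theorem map_groupLaw_one {T : Scheme.{u}} (t : T ⟶ Spec (CommRingCat.of R)) :
    P.map ((groupLaw P hmul huniv).one t) univ = 1 :=
  map_cls P huniv t _

theorem map_groupLaw_inv {T : Scheme.{u}} (t : T ⟶ Spec (CommRingCat.of R))
    (x : SchemeHomOver t p) :
    P.map ((groupLaw P hmul huniv).inv t x) univ = (P.map x univ)⁻¹ :=
  map_cls P huniv t _

include hmul in
theorem map_one_rel {T T' : Scheme.{u}} {t : T ⟶ Spec (CommRingCat.of R)}
    {t' : T' ⟶ Spec (CommRingCat.of R)} (g : SchemeHomOver t' t) :
    P.map g (1 : P.obj t) = 1 := by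
  have h := hmul g 1 1
  rw [mul_one] at h
  exact (mul_eq_left.mp h.symm)

theorem cls_mul {T : Scheme.{u}} (t : T ⟶ Spec (CommRingCat.of R)) (x y : P.obj t) :
    cls P huniv t (x * y) =
      (groupLaw P hmul huniv).mul t (cls P huniv t x) (cls P huniv t y) := by
  apply ext_of_map P huniv
  rw [map_groupLaw_mul, map_cls, map_cls, map_cls]

theorem cls_one {T : Scheme.{u}} (t : T ⟶ Spec (CommRingCat.of R)) :
    cls P huniv t (1 : P.obj t) = (groupLaw P hmul huniv).one t := rfl

theorem cls_natural {T T' : Scheme.{u}} {t : T ⟶ Spec (CommRingCat.of R)}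
    {t' : T' ⟶ Spec (CommRingCat.of R)} (g : SchemeHomOver t' t) (h : P.obj t) :
    cls P huniv t' (P.map g h) = schemeHomOverComp g.1 g.2 (cls P huniv t h) := by
  apply ext_of_map P huniv
  rw [map_cls, map_schemeHomOverComp, map_cls]

end grp

end Fermat.Agent.JNg
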